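import Fermat.Agent.DR.Conc.Export
import Fermat.Agent.DR.Gal.Level
import Fermat.Agent.S33.HeckeP.Main
import Fermat.Agent.S36R.KS.Theta
import Fermat.Agent.S28.Interface
import Fermat.Prelude.Def_FLTPrelim_ModularRep
import Fermat.Prelude.Def_FreyPackage_IsConductorLevel

/-!
# Project MR (S44: Mazur-Ribet, remove `p` from the level; Frey form).  Contracts between the blocks.

Plan = report 321.  `N = M' * p`, `p ≥ 5`, `p ∤ M'`; `M` a NEAT multiple of `M'` prime to `p` (`M = lcm M' 4`).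
`A` a valuation subring of `ℚ̄` over `p`, `I` its inertia group, `k` its residue field.
`R1 = Conc.R1 A M p`, `R2 = Conc.R2 A M p` the two reductions of `FN (M * p)` onto `E k M`.

* `IsCyc p τ a`       : `τ` acts on `μ_p` by `ζ ↦ ζ ^ a`.
* `PeuRam A p V`      : (E2) every Kummer extension `K₁(a^(1/p))`, `a ∈ K₀ = ℚ̄^I`, cut out by `V` has `p ∣ v(a)`.
* `meterS k p`        : the series `(Δ(t) / Δ(t^p)) ^ (p + 1)`; over `k` it is an element of `E k M` whose zeros off the cusps are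
                        the supersingular points (= the nodes), with multiplicity `12 (p + 1)`.
* `SlopeMeter`        : `12 (p+1) ord_P(ū) ≡ κ ord_P(ψ̄) (mod p)` off the cusps, `ord_P(ū) ≡ 0` at the cusps.
* `RigidStatement`    : (S33 GALP)  inertia acts by the cyclotomic character on the classes which are deep at both valuations.
* `PLStatement`       : (blocks PLA + PLC)  wild Picard-Lefschetz + peu ramifié  ⟹  constant slopes.
* `EisStatement`      : (block EIS)  constant slopes + non Eisenstein ⟹ all the orders of `ū` are divisible by `p`.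
* `HQStatement`       : (block EIS)  `θ ū / ū` is a `T_ℓ`-eigenseries.
* `LiftStatement`     : (block LIFT) `θ ū / ū` is the reduction of a cusp form of level `M'`.
* `GlueInStatement`, `GlueOutStatement` : (block GLUE).
* `EStatement`        : (block E).
-/

set_option autoImplicit false

noncomputable section

namespace Fermat.Agent.MR

open AlgebraicCurve ModularCurve Fermat.Agent.S24 Fermat.Agent.GAL Fermat.Agent.GAL.Hecke
  Fermat.Agent.GAL.RED Fermat.Agent.DR Fermat.Agent.DR.Gal Fermat.Agent.S33.HeckeP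
  WeierstrassCurve WeierstrassCurve.Affine WeierstrassCurve.Affine.Point

/-- the residue field of `A`. -/
abbrev kk (A : ValuationSubring Kbar) : Type := IsLocalRing.ResidueField ↥A

/-- `τ` acts on `μ_p` by `ζ ↦ ζ ^ a`. -/
def IsCyc (p : ℕ) (τ : GQ) (a : ℕ) : Prop := ∀ μ : Kbar, μ ^ p = 1 → τ μ = μ ^ a

/-- **(E2)** `V` is peu ramifié at `A`. -/
def PeuRam (A : ValuationSubring Kbar) (p : ℕ) {X : Type*} [AddCommGroup X] [DistribMulAction GQ X]
    (V : AddSubgroup X) : Prop :=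
  ∀ a α : Kbar, a ≠ 0 → (∀ τ ∈ A.inertiaSubgroupIn ℚ, τ a = a) → α ^ p = a →
    (∀ τ ∈ A.inertiaSubgroupIn ℚ, (∀ μ : Kbar, μ ^ p = 1 → τ μ = μ) → (∀ x ∈ V, τ • x = x) →
      τ α = α) →
    ∃ n : ℤ, A.valuation a = A.valuation (p : Kbar) ^ ((p : ℤ) * n)

/-- **(E1)** inertia does not act on `V` through the scalar cyclotomic character. -/
def NotCycScalar (A : ValuationSubring Kbar) (p : ℕ) {X : Type*} [AddCommGroup X]
    [DistribMulAction GQ X] (V : AddSubgroup X) : Prop :=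
  ¬ ∀ τ ∈ A.inertiaSubgroupIn ℚ, ∀ a : ℕ, IsCyc p τ a → ∀ x ∈ V, τ • x = a • x

/-- The meter `(Δ(t) / Δ(t^p)) ^ (p + 1)` as a Laurent series. -/
def meterS (Λ : Type*) [CommRing Λ] (p : ℕ) [NeZero p] : LaurentSeries Λ :=
  (S28.DlL Λ * qExpand Λ p (S28.DlLinv Λ)) ^ (p + 1)

section level

variable (A : ValuationSubring Kbar) (M p : ℕ) [NeZero M] [NeZero p] (hp : p.Prime)
  (hpM : ¬ p ∣ M) (hA : A.LiesOverPrime p)

/-- all the orders of `v` are divisible by `p`. -/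
def PDiv (v : Igusa.E (kk A) M) : Prop := ∀ P : Place (kk A) (Igusa.E (kk A) M), (p : ℤ) ∣ P.ord v

/-- constant slopes, in meter form. -/
def SlopeMeter (v : Igusa.E (kk A) M) (κ : ℤ) : Prop :=
  ∀ ψ : Igusa.E (kk A) M, (ψ : LaurentSeries (kk A)) = meterS (kk A) p →
    ∀ P : Place (kk A) (Igusa.E (kk A) M),
      (0 ≤ P.ord (Igusa.jb (kk A) M) → (p : ℤ) ∣ 12 * ((p : ℤ) + 1) * P.ord v - κ * P.ord ψ) ∧
      (P.ord (Igusa.jb (kk A) M) < 0 → (p : ℤ) ∣ P.ord v)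

/-- the classes which are deep at both valuations ("toric part"). -/
def Tor : AddSubgroup (KV Kbar (FN (M * p)) p) :=
  Deep (Conc.R1 A M p hp hpM hA) p ⊓ Deep (Conc.R2 A M p hp hpM hA) p

end level

/-- **(S33, GALP)** inertia acts through the cyclotomic character on the toric part. -/
def RigidStatement : Prop :=
  ∀ (M p : ℕ) [NeZero M] [NeZero p] (hp : p.Prime) (hpM : ¬ p ∣ M), p ≠ 2 → 4 ∣ M →
    ∀ (A : ValuationSubring Kbar) (hA : A.LiesOverPrime p),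
      ∀ x ∈ Tor A M p hp hpM hA, ∀ τ ∈ A.inertiaSubgroupIn ℚ, ∀ a : ℕ, IsCyc p τ a → τ • x = a • x

/-- **(PLA + PLC)** wild Picard-Lefschetz.  `S` a group of toric classes, `x` a class with `(I - 1) x ⊆ S`, and the group generated by
`S` and `x` is peu ramifié.  Then the slopes of `x` are constant. -/
def PLStatement : Prop :=
  ∀ (M p : ℕ) [NeZero M] [NeZero p] (hp : p.Prime) (hpM : ¬ p ∣ M), 5 ≤ p → 4 ∣ M →
    ∀ (A : ValuationSubring Kbar) (hA : A.LiesOverPrime p)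
      (S : AddSubgroup (KV Kbar (FN (M * p)) p)) (x : KV Kbar (FN (M * p)) p),
      S ≤ Tor A M p hp hpM hA →
      (∀ τ ∈ A.inertiaSubgroupIn ℚ, ∀ s ∈ S, τ • s ∈ S) →
      (∀ τ ∈ A.inertiaSubgroupIn ℚ, τ • x - x ∈ S) →
      PeuRam A p (S ⊔ AddSubgroup.zmultiples x) →
      ∀ u : kummerUnits Kbar (FN (M * p)) p, KV.mk u = x →
        (Conc.R1 A M p hp hpM hA).red ((u : (FN (M * p))ˣ) : FN (M * p)) ≠ 0 →
        ∃ κ : ℤ, SlopeMeter A M p
          ((Conc.R1 A M p hp hpM hA).red ((u : (FN (M * p))ˣ) : FN (M * p))) κ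

/-- **(EIS)** constant slopes and `a_ℓ ≢ ℓ + 1` give slopes `0`. -/
def EisStatement : Prop :=
  ∀ (M p : ℕ) [NeZero M] [NeZero p] (hp : p.Prime) (hpM : ¬ p ∣ M), 5 ≤ p → 4 ∣ M →
    ∀ (A : ValuationSubring Kbar) (hA : A.LiesOverPrime p)
      (u : kummerUnits Kbar (FN (M * p)) p) (κ : ℤ) (ℓ : ℕ) [NeZero ℓ] (a : ℤ),
      (Conc.R1 A M p hp hpM hA).red ((u : (FN (M * p))ˣ) : FN (M * p)) ≠ 0 →
      SlopeMeter A M p ((Conc.R1 A M p hp hpM hA).red ((u : (FN (M * p))ˣ) : FN (M * p))) κ →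
      ℓ.Prime → ¬ ℓ ∣ M * p → heckeT Kbar (M * p) ℓ p (KV.mk u) = a • KV.mk u →
      ¬ (p : ℤ) ∣ a - ((ℓ : ℤ) + 1) →
      PDiv A M p ((Conc.R1 A M p hp hpM hA).red ((u : (FN (M * p))ˣ) : FN (M * p)))

/-- `b` is an eigenseries of the weight two Hecke operator `T_ℓ` with eigenvalue `a`. -/
def IsEigenSeries {Λ : Type*} [CommRing Λ] (b : LaurentSeries Λ) (ℓ : ℕ) (a : Λ) : Prop :=
  ∀ n : ℤ, b.coeff (n * ℓ) + (if (ℓ : ℤ) ∣ n then (ℓ : Λ) * b.coeff (n / ℓ) else 0) = a * b.coeff n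

/-- `θ v / v` for an element `v` of `E k M` (as a Laurent series). -/
def dlogS {k : Type} [Field k] {M : ℕ} (v : Igusa.E k M) : LaurentSeries k :=
  S36R.KS.theta (v : LaurentSeries k) * (v : LaurentSeries k)⁻¹

/-- **(EIS, series part)** (any level `M' * p`, no neatness): if `T_ℓ [u] = a [u]` and the reduction `ū` of `u` at `∞` is `≠ 0`,
then `θ ū / ū` is a `T_ℓ`-eigenseries. -/
def HQStatement : Prop :=
  ∀ (M' p : ℕ) [NeZero M'] [NeZero p] (hp : p.Prime) (hpM : ¬ p ∣ M'),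
    ∀ (A : ValuationSubring Kbar) (hA : A.LiesOverPrime p)
      (u : kummerUnits Kbar (FN (M' * p)) p) (ℓ : ℕ) [NeZero ℓ] (a : ℤ),
      (Conc.R1 A M' p hp hpM hA).red ((u : (FN (M' * p))ˣ) : FN (M' * p)) ≠ 0 →
      ℓ.Prime → ¬ ℓ ∣ M' * p → heckeT Kbar (M' * p) ℓ p (KV.mk u) = a • KV.mk u →
      IsEigenSeries (dlogS ((Conc.R1 A M' p hp hpM hA).red ((u : (FN (M' * p))ˣ) : FN (M' * p))))
        ℓ (a : kk A)

/-- `G` is a cusp form whose `q`-expansion is `A`-integral with reduction `b`. -/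
def RedOfForm (A : ValuationSubring Kbar) (M' : ℕ) (b : LaurentSeries (kk A)) : Prop :=
  ∃ (G : CuspForm (CongruenceSubgroup.Gamma0 M') 2) (c : ℕ → ↥A),
    (∀ n, ModularFormClass.qCoeff G n = iota (c n : Kbar)) ∧
    ∀ n : ℕ, b.coeff (n : ℤ) = IsLocalRing.residue ↥A (c n)

/-- **(LIFT)** `u` a function of level `M' * p` whose reduction `ū` at `∞`, seen at the neat level `M`, has all its orders
divisible by `p`.  Then `θ ū / ū` is the reduction of a cusp form of level `M'`. -/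
def LiftStatement : Prop :=
  ∀ (M' M p : ℕ) [NeZero M'] [NeZero M] [NeZero p] (hp : p.Prime) (hpM' : ¬ p ∣ M') (hpM : ¬ p ∣ M),
    5 ≤ p → 4 ∣ M → ∀ (hM : M' ∣ M), M ∣ 4 * M' →
    ∀ (A : ValuationSubring Kbar) (hA : A.LiesOverPrime p) (u : FN (M' * p)),
      (Conc.R1 A M p hp hpM hA).red (lvl (Nat.mul_dvd_mul_right hM p) u) ≠ 0 →
      PDiv A M p ((Conc.R1 A M p hp hpM hA).red (lvl (Nat.mul_dvd_mul_right hM p) u)) →
      RedOfForm A M' (dlogS ((Conc.R1 A M' p hp hpM' hA).red u))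

/-- **(LIFT, L0)** an element of `E k M'` killed by `θ` is a `p`-th power. -/
def PthPowerStatement : Prop :=
  ∀ (M' p : ℕ) [NeZero M'] [NeZero p], p.Prime → ¬ p ∣ M' →
    ∀ (k : Type) [Field k] [CharP k p] [IsAlgClosed k] (v : Igusa.E k M'),
      S36R.KS.theta (v : LaurentSeries k) = 0 → ∃ w : Igusa.E k M', w ^ p = v

/-- `E[p]` of the Frey curve. -/
abbrev Etors (P : FreyPackage) : Type :=
  Submodule.torsionBy ℤ (P.freyCurve⁄Kbar).Point P.p

/-- **(GLUE-in)**: either the level is already lowered, or `E[p]` sits in the `p`-new part of `J₀(M' p)[p]`. -/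
def GlueInStatement : Prop :=
  ∀ (P : FreyPackage) (M' : ℕ) [NeZero M'] [NeZero P.p], ¬ P.p ∣ M' →
    P.IsConductorLevel (M' * P.p) →
    GaloisRepIsIrreducible (K := AlgebraicClosure ℚ) ℚ P.freyCurve P.p →
    P.ModularRepOfLevel (M' * P.p) →
    P.ModularRepOfLevel M' ∨
    ∃ (W : WeierstrassCurve ℤ) (φ : Etors P →+ KV Kbar (FN (M' * P.p)) P.p),
      W.IsIntegralModelOf P.freyCurve ∧ Function.Injective φ ∧
      (∀ (σ : GQ) (x : Etors P), φ (σ • x) = σ • φ x) ∧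
      (∀ (ℓ : ℕ) [NeZero ℓ], ℓ.Prime → W.IsGoodPrimeFor ℓ → ¬ ℓ ∣ M' * P.p → ∀ x : Etors P,
        heckeT Kbar (M' * P.p) ℓ P.p (φ x) = (W.apOfModel ℓ) • φ x) ∧
      (∀ x : Etors P, alphaKV M' P.p P.p (φ x) = 0) ∧
      (∃ ε : ℤ, ∀ x : Etors P, wKV M' P.p P.p (φ x) = ε • φ x) ∧
      (∃ ℓ : ℕ, ℓ.Prime ∧ W.IsGoodPrimeFor ℓ ∧ ¬ ℓ ∣ 4 * M' * P.p ∧
        ¬ (P.p : ℤ) ∣ W.apOfModel ℓ - ((ℓ : ℤ) + 1))

/-- **(GLUE-out)**: Deligne-Serre lifting. -/
def GlueOutStatement : Prop :=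
  ∀ (P : FreyPackage) (M' : ℕ) [NeZero M'] (W : WeierstrassCurve ℤ),
    W.IsIntegralModelOf P.freyCurve → ¬ P.p ∣ M' →
    ∀ (A : ValuationSubring Kbar), A.LiesOverPrime P.p → ∀ b : LaurentSeries (kk A),
      b ≠ 0 → (∀ n : ℤ, n < 0 → b.coeff n = 0) → RedOfForm A M' b →
      (∀ ℓ : ℕ, ℓ.Prime → W.IsGoodPrimeFor ℓ → ¬ ℓ ∣ M' * P.p →
        IsEigenSeries b ℓ ((W.apOfModel ℓ : ℤ) : kk A)) →
      P.ModularRepOfLevel M'

/-- **(E)**: the local structure of `E[p]` at `p ∣ abc`. -/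
def EStatement : Prop :=
  ∀ (P : FreyPackage), (P.p : ℤ) ∣ P.a * P.b * P.c →
    ∀ (A : ValuationSubring Kbar), A.LiesOverPrime P.p →
      NotCycScalar A P.p (⊤ : AddSubgroup (Etors P)) ∧ PeuRam A P.p (⊤ : AddSubgroup (Etors P))

end Fermat.Agent.MR
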