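import Fermat.Agent.MR.Interface
import Fermat.Agent.GAL.Hecke.NormFormula
import Fermat.Agent.GAL.Hecke.HeckeBasic
import Fermat.Agent.GAL.Hecke.DegreeAlpha

/-!
# MR / Level : change of level `N ∣ N'` on the Kummer model

* `lvlKV_heckeT`            : the pull-back commutes with `T_ℓ`, `ℓ ∤ N'`.
* `finrankAlong_lvl_mul`    : `[F(N') : F(N)] ψ(N) = ψ(N')`.
* `lvlKV_four_injective`    : the pull-back `V_p(F(N)) → V_p(F(4 N))` is injective for `p ≥ 5`.
* `coe_R1_red_lvl`          : the reduction at `∞` does not depend on the level.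
-/

set_option autoImplicit false

noncomputable section

namespace Fermat.Agent.MR

open AlgebraicCurve ModularCurve Fermat.Agent.S24 Fermat.Agent.GAL Fermat.Agent.GAL.Hecke
  Fermat.Agent.GAL.RED Fermat.Agent.DR Fermat.Agent.DR.Gal Fermat.Agent.S33.HeckeP

section Hecke

variable {N N' : ℕ} [NeZero N] [NeZero N'] (h : N ∣ N')

theorem lvl_heckeNorm (ℓ : ℕ) [NeZero ℓ] (hℓ : ℓ.Prime) (hℓN' : ¬ ℓ ∣ N') (f : FN N) :
    lvl h (heckeNorm Kbar N ℓ f) = heckeNorm Kbar N' ℓ (lvl h f) := by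
  have hℓN : ¬ ℓ ∣ N := fun h' => hℓN' (h'.trans h)
  obtain ⟨ζ₀, hζ₀⟩ : ∃ ζ : Kbar, IsPrimitiveRoot ζ ℓ :=
    HasEnoughRootsOfUnity.exists_primitiveRoot Kbar ℓ
  let ζ : Kbarˣ := hζ₀.isUnit hℓ.ne_zero |>.unit
  have hζ : IsPrimitiveRoot ζ ℓ := IsPrimitiveRoot.coe_units_iff.mp (by simpa [ζ] using hζ₀)
  apply Subtype.ext
  apply qExpand_injective (R := Kbar) (N := ℓ)
  rw [coe_lvl, Hecke.qExpand_heckeNorm N ℓ hℓ hℓN ζ hζ f,
    Hecke.qExpand_heckeNorm N' ℓ hℓ hℓN' ζ hζ (lvl h f), coe_lvl]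

theorem lvlKV_heckeT (ℓ : ℕ) [NeZero ℓ] (hℓ : ℓ.Prime) (hℓN' : ¬ ℓ ∣ N') (m : ℕ)
    (x : KV Kbar (FN N) m) :
    lvlKV h m (heckeT Kbar N ℓ m x) = heckeT Kbar N' ℓ m (lvlKV h m x) := by
  obtain ⟨u, rfl⟩ := KV.mk_surjective x
  rw [heckeT_mk (heckeNormPreserves N ℓ m), lvlKV_mk, lvlKV_mk,
    heckeT_mk (heckeNormPreserves N' ℓ m)]
  refine congrArg KV.mk (Subtype.ext (Units.ext ?_))
  exact lvl_heckeNorm h ℓ hℓ hℓN' _

theorem finrankAlong_lvl_mul : finrankAlong Kbar (lvl h) * dedekindPsi N = dedekindPsi N' := by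
  have h1 := DegreeAlpha.finrank_tower (lvl h) (jF N)
  rw [lvl_jF, DegreeAlpha.finrank_jF, DegreeAlpha.finrank_jF, mul_comm] at h1
  exact h1

end Hecke

theorem dedekindPsi_four_mul (N : ℕ) [NeZero N] :
    dedekindPsi (4 * N) = 4 * dedekindPsi N ∨ dedekindPsi (4 * N) = 6 * dedekindPsi N := by
  have h4 : 4 * N = 2 * (2 * N) := by ring
  rw [h4, Lib.Gamma0Count.dedekindPsi_prime_mul_of_dvd Nat.prime_two
    (mul_ne_zero two_ne_zero (NeZero.ne N)) (dvd_mul_right 2 N)]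
  by_cases h2 : 2 ∣ N
  · left
    rw [Lib.Gamma0Count.dedekindPsi_prime_mul_of_dvd Nat.prime_two (NeZero.ne N) h2]
    ring
  · right
    rw [Lib.Gamma0Count.dedekindPsi_prime_mul_of_not_dvd Nat.prime_two (NeZero.ne N) h2]
    ring

/-- the degree of `F(N') / F(N)` for `N' = 4 N`. -/
theorem finrankAlong_lvl_four {N N' : ℕ} [NeZero N] [NeZero N'] (h : N ∣ N') (h4 : N' = 4 * N) :
    finrankAlong Kbar (lvl h) = 4 ∨ finrankAlong Kbar (lvl h) = 6 := by
  have h1 := finrankAlong_lvl_mul h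
  have hpos := DegreeAlpha.dedekindPsi_pos N
  have h5 : dedekindPsi N' = dedekindPsi (4 * N) := by rw [h4]
  rw [h5] at h1
  rcases dedekindPsi_four_mul N with h2 | h2
  · left
    rw [h2] at h1
    exact Nat.eq_of_mul_eq_mul_right hpos h1
  · right
    rw [h2] at h1
    exact Nat.eq_of_mul_eq_mul_right hpos h1

/-- the pull-back to the level `4 N` is injective on `V_p`, `p ≥ 5`. -/
theorem lvlKV_four_injective {N N' : ℕ} [NeZero N] [NeZero N'] (h : N ∣ N') (h4 : N' = 4 * N)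
    {p : ℕ} (hp : p.Prime) (hp5 : 5 ≤ p) : Function.Injective (lvlKV h p) := by
  rw [injective_iff_map_eq_zero]
  intro x hx
  have h1 := nsmul_eq_zero_of_lvlKV h p x hx
  have h2 : p • x = 0 := KV.nsmul_eq_zero x
  have hcop : Nat.Coprime (finrankAlong Kbar (lvl h)) p := by
    rw [Nat.coprime_comm, Nat.Prime.coprime_iff_not_dvd hp]
    intro hd
    rcases finrankAlong_lvl_four h h4 with e | e
    · rw [e] at hd
      have := Nat.le_of_dvd (by norm_num) hd
      omega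
    · rw [e] at hd
      have h6 : p ∣ 2 * 3 := by simpa using hd
      rcases (Nat.Prime.dvd_mul hp).1 h6 with h' | h'
      · have := Nat.le_of_dvd (by norm_num) h'
        omega
      · have := Nat.le_of_dvd (by norm_num) h'
        omega
  have h3 : (Nat.gcd (finrankAlong Kbar (lvl h)) p) • x = 0 := by
    have hb := Nat.gcd_eq_gcd_ab (finrankAlong Kbar (lvl h)) p
    have : ((Nat.gcd (finrankAlong Kbar (lvl h)) p : ℕ) : ℤ) • x = 0 := by
      rw [hb, add_smul, mul_comm, mul_smul, mul_comm, mul_smul, natCast_zsmul, natCast_zsmul, h1,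
        h2, smul_zero, smul_zero, add_zero]
    rwa [natCast_zsmul] at this
  rw [hcop, one_smul] at h3
  exact h3

section Red

variable (A : ValuationSubring Kbar) {M' M : ℕ} (p : ℕ) [NeZero M'] [NeZero M] [NeZero p]
  (hp : p.Prime) (hpM' : ¬ p ∣ M') (hpM : ¬ p ∣ M) (hA : A.LiesOverPrime p) (hM : M' ∣ M)

theorem lvl_mem_R1_O_iff (u : FN (M' * p)) :
    lvl (Nat.mul_dvd_mul_right hM p) u ∈ (Conc.R1 A M p hp hpM hA).O ↔
      u ∈ (Conc.R1 A M' p hp hpM' hA).O := by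
  rw [Conc.mem_R1_O_iff, Conc.mem_R1_O_iff, coe_lvl]

/-- the reduction at `∞` does not depend on the level. -/
theorem coe_R1_red_lvl (u : FN (M' * p)) :
    (((Conc.R1 A M p hp hpM hA).red (lvl (Nat.mul_dvd_mul_right hM p) u) : Igusa.E (kk A) M) :
      LaurentSeries (kk A)) =
    (((Conc.R1 A M' p hp hpM' hA).red u : Igusa.E (kk A) M') : LaurentSeries (kk A)) := by
  by_cases hu : u ∈ (Conc.R1 A M' p hp hpM' hA).O
  · have hu1 : (u : LaurentSeries Kbar) ∈ Gauss.gRing A :=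
      (Conc.mem_R1_O_iff A M' p hp hpM' hA u).1 hu
    have hu2 : ((lvl (Nat.mul_dvd_mul_right hM p) u : FN (M * p)) : LaurentSeries Kbar) ∈
        Gauss.gRing A := by
      rw [coe_lvl]; exact hu1
    rw [Conc.coe_R1_red A M p hp hpM hA _ hu2, Conc.coe_R1_red A M' p hp hpM' hA _ hu1]
    exact congrArg (Gauss.gRes A) (Subtype.ext (coe_lvl (Nat.mul_dvd_mul_right hM p) u))
  · have hu' := fun h' => hu ((lvl_mem_R1_O_iff A p hp hpM' hpM hA hM u).1 h')
    rw [RedData.red_of_not_mem _ hu, RedData.red_of_not_mem _ hu', ZeroMemClass.coe_zero,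
      ZeroMemClass.coe_zero]

theorem R1_red_lvl_ne_zero_iff (u : FN (M' * p)) :
    (Conc.R1 A M p hp hpM hA).red (lvl (Nat.mul_dvd_mul_right hM p) u) ≠ 0 ↔
      (Conc.R1 A M' p hp hpM' hA).red u ≠ 0 := by
  have h := coe_R1_red_lvl A p hp hpM' hpM hA hM u
  rw [not_iff_not, ← ZeroMemClass.coe_eq_zero, h, ZeroMemClass.coe_eq_zero]

theorem dlogS_R1_red_lvl (u : FN (M' * p)) :
    dlogS ((Conc.R1 A M p hp hpM hA).red (lvl (Nat.mul_dvd_mul_right hM p) u)) =
      dlogS ((Conc.R1 A M' p hp hpM' hA).red u) := by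
  rw [dlogS, dlogS, coe_R1_red_lvl A p hp hpM' hpM hA hM u]

end Red

end Fermat.Agent.MR
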