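import Fermat.Agent.MR.Interface
import Fermat.Agent.S33.GalP.Final

/-!
# MR / Rigid : inertia acts through the cyclotomic character on the classes which are deep at both valuations
(export of S33/GalP: `smul_eq_of_deepAll` instantiated at `Conc.TT A M p`).

* `smul_eq_of_deep` : any exponent `m > 0`, neat level (`4 ∣ M ∨ 9 ∣ M`);
* `rigidStatement : MR.RigidStatement`.
-/

set_option autoImplicit false
set_option linter.unusedSectionVars false
set_option linter.style.haveILetI false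

noncomputable section

namespace Fermat.Agent.MR

open ModularCurve AlgebraicCurve Fermat.Agent.S24 Fermat.Agent.GAL Fermat.Agent.GAL.RED
  Fermat.Agent.DR Fermat.Agent.DR.Gal Fermat.Agent.GAL.Igusa Fermat.Agent.S33.HeckeP
  Fermat.Agent.S33.GalP

/-- **Rigidity** at any exponent `m`. -/
theorem smul_eq_of_deep (M p : ℕ) [NeZero M] [NeZero p] (hp : p.Prime) (hpM : ¬ p ∣ M)
    (hneat : 4 ∣ M ∨ 9 ∣ M) (A : ValuationSubring Kbar) (hA : A.LiesOverPrime p) {m : ℕ}
    (hm : 0 < m) {x : KV Kbar (FN (M * p)) m} (h1 : x ∈ Deep (Conc.R1 A M p hp hpM hA) m)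
    (h2 : x ∈ Deep (Conc.R2 A M p hp hpM hA) m) {τ : GQ} (hτ : τ ∈ A.inertiaSubgroupIn ℚ)
    (a : ℕ) (ha : ∀ μ : Kbar, μ ^ m = 1 → τ μ = μ ^ a) : τ • x = a • x := by
  haveI : Fact p.Prime := ⟨hp⟩
  haveI := Hecke.charP_residueField A hp hA
  haveI := perfectRing_residueField p A
  haveI : Lib.RR.IsFF Kbar (FN (M * p)) := Fermat.Agent.GAL.Desc.isFF_FF_Kbar (M * p)
  haveI : Lib.RR.IsFF Kbar (FN M) := Fermat.Agent.GAL.Desc.isFF_FF_Kbar M
  haveI := Igusa.isAlgClosed_residueField A
  have hM := Conc.natCast_M_ne_zero A M p hp hpM hA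
  haveI := Igusa.isFF_E (IsLocalRing.ResidueField ↥A) M hM
  have hg : Conc.GoodRed A M := Conc.goodRed_of_neat A M hM Igusa.cuspUpper Igusa.cuspLower hneat
  have hP := Conc.pairHyp A M p hp hpM hA hg
  obtain ⟨a₀, hN⟩ := hP.isPreNodal
  haveI : Fintype ↥(hP.filt.nodes) := hP.filt.finite_nodes.fintype
  haveI : NeZero m := ⟨hm.ne'⟩
  haveI := finite_KV (M * p) m
  have hV : ValContract (Conc.TT A M p hp hpM hA) m :=
    valContract_of (Nat.cast_ne_zero.2 hm.ne') _ (Conc.TT_sep A M p hp hpM hA)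
      (fin_TT_hasScales A M p hp hpM hA) (fin_TT_rankOne A M p hp hpM hA)
      (fin_TT_small A M p hp hpM hA)
  have hD : x ∈ DeepAll (Conc.TT A M p hp hpM hA) m := by
    rw [mem_DeepAll]
    intro i
    fin_cases i
    · exact h1
    · exact h2
  have hin : ∀ i, Inertial ((Conc.TT A M p hp hpM hA).R i) (gal (M * p) τ) := by
    intro i
    fin_cases i
    · exact fun f hf => ⟨(compat_R1_of_inertia A M p hp hpM hA τ hτ).mem f hf,
        (compat_R1_of_inertia A M p hp hpM hA τ hτ).red f hf⟩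
    · exact fun f hf => ⟨(compat_R2_of_inertia A M p hp hpM hA τ hτ).mem f hf,
        (compat_R2_of_inertia A M p hp hpM hA τ hτ).red f hf⟩
  exact smul_eq_of_deepAll hN hm hV (gal (M * p) τ) hin
    (Conc.gal_xC M p τ) a (fun z hz => ha z hz) hD

/-- **The contract RIGID of project MR.** -/
theorem rigidStatement : RigidStatement := by
  intro M p _ _ hp hpM _ h4 A hA x hx τ hτ a ha
  exact smul_eq_of_deep M p hp hpM (Or.inl h4) A hA hp.pos hx.1 hx.2 hτ a ha

end Fermat.Agent.MR
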