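import Fermat.Agent.MR.Top
import Fermat.Agent.MR.Rigid
import Fermat.Agent.MR.Eis.Main
import Fermat.Agent.MR.Eis.HQ
import Fermat.Agent.MR.Lift.Main
import Fermat.Agent.MR.Lift.FFOut
import Fermat.Agent.MR.Lift.L4.Statement
import Fermat.Agent.MR.Lift.PthPower
import Fermat.Agent.MR.Glue.Final
import Fermat.Agent.MR.E.Statement
import Fermat.Agent.MR.PLC.End.Final

/-!
# MR / Final : S44 from the four remaining contracts of PLC (integration test: all the closed blocks imported together)
-/

set_option autoImplicit false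

namespace Fermat.Agent.MR

open WeierstrassCurve WeierstrassCurve.Affine WeierstrassCurve.Affine.Point

/-- **S44** from `SerStatement`, `SPStatement`, `DescStatement`, `MetStatement`. -/
theorem s44_of_plc (hSer : PLC.End.SerStatement) (hSP : PLC.End.SPStatement)
    (hDesc : PLC.End.DescStatement) (hMet : PLC.End.MetStatement) (P : FreyPackage) {N : ℕ}
    (hcond : P.IsConductorLevel N) (hpN : P.p ∣ N)
    (hirr : GaloisRepIsIrreducible (K := AlgebraicClosure ℚ) ℚ P.freyCurve P.p)
    (hmod : P.ModularRepOfLevel N) : ∃ M : ℕ, M ∣ N ∧ ¬ P.p ∣ M ∧ P.ModularRepOfLevel M :=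
  s44_of rigidStatement (PLC.End.plStatement_of hSer hSP hDesc hMet) Eis.eisStatement Eis.hq
    (Lift.liftStatement_of Lift.ffOut Lift.l4Statement) Lift.pthPowerStatement Glue.glueIn Glue.glueOut
    eStatement P hcond hpN hirr hmod

end Fermat.Agent.MR
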