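import Fermat.Agent.MR.Level
import Fermat.Agent.DR.Hecke.DR3
import Fermat.Agent.Lib.Frobenius
import Fermat.Agent.GAL.INJ.ResAlgClosed

/-!
# MR / Top : the statement S44 from the contracts of `MR/Interface.lean`
-/

set_option autoImplicit false
set_option linter.style.haveILetI false

noncomputable section

namespace Fermat.Agent.MR

open AlgebraicCurve ModularCurve Fermat.Agent.S24 Fermat.Agent.GAL Fermat.Agent.GAL.Hecke
  Fermat.Agent.GAL.RED Fermat.Agent.DR Fermat.Agent.DR.Gal Fermat.Agent.S33.HeckeP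

/-! ### Abstract nonsense -/

/-- `PeuRam` is antitone. -/
theorem PeuRam.mono {A : ValuationSubring Kbar} {p : ℕ} {X : Type*} [AddCommGroup X]
    [DistribMulAction GQ X] {V V' : AddSubgroup X} (h : PeuRam A p V) (hle : V' ≤ V) :
    PeuRam A p V' := by
  intro a α ha hfix hα hK
  exact h a α ha hfix hα fun τ hτ hμ hx => hK τ hτ hμ fun x hx' => hx x (hle hx')

/-- transport of `PeuRam` along an equivariant map. -/
theorem PeuRam.range {A : ValuationSubring Kbar} {p : ℕ} {X Y : Type*} [AddCommGroup X]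
    [DistribMulAction GQ X] [AddCommGroup Y] [DistribMulAction GQ Y] (ψ : X →+ Y)
    (hψ : ∀ (σ : GQ) (x : X), ψ (σ • x) = σ • ψ x) (h : PeuRam A p (⊤ : AddSubgroup X)) :
    PeuRam A p ψ.range := by
  intro a α ha hfix hα hK
  refine h a α ha hfix hα fun τ hτ hμ hx => hK τ hτ hμ ?_
  rintro _ ⟨x, rfl⟩
  rw [← hψ, hx x (AddSubgroup.mem_top x)]

/-! ### Series -/

theorem dlogS_coeff_neg {k : Type} [Field k] {M : ℕ} (v : Igusa.E k M) (n : ℤ) (hn : n < 0) :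
    (dlogS v).coeff n = 0 := by
  rw [dlogS]
  set x : LaurentSeries k := (v : LaurentSeries k) with hx
  by_cases hx0 : x = 0
  · rw [hx0, map_zero, zero_mul, HahnSeries.coeff_zero]
  by_cases ht : S36R.KS.theta x = 0
  · rw [ht, zero_mul, HahnSeries.coeff_zero]
  apply HahnSeries.coeff_eq_zero_of_lt_order
  have hinv : x⁻¹ ≠ 0 := inv_ne_zero hx0
  have h0 : x.order + (x⁻¹).order = 0 := by
    rw [← HahnSeries.order_mul hx0 hinv, mul_inv_cancel₀ hx0, HahnSeries.order_one]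
  rw [HahnSeries.order_mul ht hinv]
  have h1 : x.order ≤ (S36R.KS.theta x).order := by
    apply HahnSeries.order_le_of_coeff_ne_zero
    intro h
    apply ht
    rw [← HahnSeries.coeff_order_eq_zero, S36R.KS.theta_coeff, h, mul_zero]
  omega

/-! ### The level `M p` -/

section level

variable (A : ValuationSubring Kbar) (M p : ℕ) [NeZero M] [NeZero p] (hp : p.Prime)
  (hpM : ¬ p ∣ M) (hA : A.LiesOverPrime p)

theorem mem_Tor_of_new {x : KV Kbar (FN (M * p)) p} (hx : x ∈ newKV M p p)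
    (h1 : x ∈ Kone (Conc.R1 A M p hp hpM hA) p) (h2 : x ∈ Kone (Conc.R2 A M p hp hpM hA) p) :
    x ∈ Tor A M p hp hpM hA :=
  AddSubgroup.mem_inf.2 ⟨deep_R1_of_new A M p hp hpM hA hx h1, deep_R2_of_new A M p hp hpM hA hx h2⟩

/-- `w` maps `ker red_∞` to `ker red_0`. -/
theorem wKV_mem_Kone_R2 {x : KV Kbar (FN (M * p)) p}
    (h1 : x ∈ Kone (Conc.R1 A M p hp hpM hA) p) :
    DR.wKV M p p x ∈ Kone (Conc.R2 A M p hp hpM hA) p := by
  rw [DR.Hecke.interface_wKV_eq hp hpM]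
  exact mem_Klev_one_iff.1 (wKV_mem_Klev_R2 A M p hp hpM hA (mem_Klev_one_iff.2 h1))

/-- a class whose reduction is a `p`-th power reduces to `1`. -/
theorem mem_Kone_of_pow_eq (u : kummerUnits Kbar (FN (M * p)) p) (w : Igusa.E (kk A) M)
    (hu : (Conc.R1 A M p hp hpM hA).red ((u : (FN (M * p))ˣ) : FN (M * p)) ≠ 0)
    (hw : w ^ p = (Conc.R1 A M p hp hpM hA).red ((u : (FN (M * p))ˣ) : FN (M * p))) :
    KV.mk u ∈ Kone (Conc.R1 A M p hp hpM hA) p := by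
  set R := Conc.R1 A M p hp hpM hA with hR
  obtain ⟨Wv, hWv⟩ := R.res_surjective w
  have hredW : R.red (Wv : FN (M * p)) = w := by rw [R.red_of_mem Wv.2]; exact hWv
  have hw0 : w ≠ 0 := by
    intro h
    apply hu
    rw [← hw, h, zero_pow hp.ne_zero]
  have hW0 : (Wv : FN (M * p)) ≠ 0 := by
    intro h
    apply hw0
    rw [← hredW, h, R.red_zero]
  let Wu : (FN (M * p))ˣ := Units.mk0 _ hW0
  let Wp : kummerUnits Kbar (FN (M * p)) p := ⟨Wu ^ p, pow_mem_kummerUnits p Wu⟩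
  have hWp : KV.mk Wp = 0 := (KV.mk_eq_zero_iff Wp).2 ⟨Wu, rfl⟩
  refine ⟨u * Wp⁻¹, by rw [KV.mk_mul, KV.mk_inv, hWp, neg_zero, add_zero], ?_⟩
  have hcoe : (((u * Wp⁻¹ : kummerUnits Kbar (FN (M * p)) p) : (FN (M * p))ˣ) : FN (M * p)) =
      ((u : (FN (M * p))ˣ) : FN (M * p)) * ((Wv : FN (M * p)) ^ p)⁻¹ := by
    rw [Subgroup.coe_mul, Units.val_mul, Subgroup.coe_inv, Units.val_inv_eq_inv_val]
    rfl
  have hWpow : R.red ((Wv : FN (M * p)) ^ p) ≠ 0 := by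
    rw [R.red_pow, hredW]
    exact pow_ne_zero p hw0
  rw [hcoe, R.red_mul (R.mem_of_red_ne_zero hu) (R.inv_mem_of_red_ne_zero hWpow), R.red_inv,
    R.red_pow, hredW, hw]
  exact mul_inv_cancel₀ hu

end level

/-! ### The core -/

section core

variable (hRigid : RigidStatement) (hPL : PLStatement) (hEis : EisStatement) (hHQ : HQStatement)
  (hLift : LiftStatement) (hPth : PthPowerStatement)

include hRigid in
/-- Step A: some class of `V` has a nontrivial reduction at `∞`. -/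
theorem exists_not_mem_Kone (M p : ℕ) [NeZero M] [NeZero p] (hp : p.Prime) (hp2 : p ≠ 2)
    (hpM : ¬ p ∣ M) (h4 : 4 ∣ M) (A : ValuationSubring Kbar) (hA : A.LiesOverPrime p)
    {X : Type*} [AddCommGroup X] [DistribMulAction GQ X]
    (hE1 : NotCycScalar A p (⊤ : AddSubgroup X))
    (ψ : X →+ KV Kbar (FN (M * p)) p) (hinj : Function.Injective ψ)
    (hgal : ∀ (σ : GQ) (x : X), ψ (σ • x) = σ • ψ x)
    (hnew : ∀ x : X, ψ x ∈ newKV M p p)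
    (ε : ℤ) (hε : ∀ x : X, wKV M p p (ψ x) = ε • ψ x) :
    ∃ x : X, ψ x ∉ Kone (Conc.R1 A M p hp hpM hA) p := by
  by_contra hcon
  push Not at hcon
  have h2 : ∀ x : X, ψ x ∈ Kone (Conc.R2 A M p hp hpM hA) p := by
    intro x
    have e : ψ x = wKV M p p (ψ (ε • x)) := by
      rw [map_zsmul, ← hε, DR.wKV_wKV]
    rw [e]
    exact wKV_mem_Kone_R2 A M p hp hpM hA (hcon _)
  apply hE1
  intro τ hτ a ha x _
  apply hinj
  rw [hgal, map_nsmul]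
  exact hRigid M p hp hpM hp2 h4 A hA (ψ x)
    (mem_Tor_of_new A M p hp hpM hA (hnew x) (hcon x) (h2 x)) τ hτ a ha

include hPL in
/-- Step B: constant slopes. -/
theorem exists_slopeMeter (M p : ℕ) [NeZero M] [NeZero p] (hp : p.Prime) (hp5 : 5 ≤ p)
    (hpM : ¬ p ∣ M) (h4 : 4 ∣ M) (A : ValuationSubring Kbar) (hA : A.LiesOverPrime p)
    {X : Type*} [AddCommGroup X] [DistribMulAction GQ X]
    (hE2 : PeuRam A p (⊤ : AddSubgroup X))
    (ψ : X →+ KV Kbar (FN (M * p)) p)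
    (hgal : ∀ (σ : GQ) (x : X), ψ (σ • x) = σ • ψ x)
    (hnew : ∀ x : X, ψ x ∈ newKV M p p) (x₀ : X)
    (u : kummerUnits Kbar (FN (M * p)) p) (hu : KV.mk u = ψ x₀)
    (hred : (Conc.R1 A M p hp hpM hA).red ((u : (FN (M * p))ˣ) : FN (M * p)) ≠ 0) :
    ∃ κ : ℤ, SlopeMeter A M p
      ((Conc.R1 A M p hp hpM hA).red ((u : (FN (M * p))ˣ) : FN (M * p))) κ := by
  refine hPL M p hp hpM hp5 h4 A hA (ψ.range ⊓ Tor A M p hp hpM hA) (ψ x₀) inf_le_right ?_ ?_ ?_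
    u hu hred
  · rintro τ hτ s hs
    obtain ⟨⟨x, rfl⟩, hs2⟩ := AddSubgroup.mem_inf.1 hs
    obtain ⟨hd1, hd2⟩ := AddSubgroup.mem_inf.1 hs2
    exact AddSubgroup.mem_inf.2 ⟨⟨τ • x, hgal τ x⟩, AddSubgroup.mem_inf.2
      ⟨inertia_smul_mem_Deep₁ A M p hp hpM hA τ hτ hd1,
        inertia_smul_mem_Deep₂ A M p hp hpM hA τ hτ hd2⟩⟩
  · intro τ hτ
    have e : τ • ψ x₀ - ψ x₀ = ψ (τ • x₀ - x₀) := by rw [map_sub, hgal]
    have hk := inertia_smul_sub_mem A M p hp hpM hA hp.pos τ hτ (ψ x₀)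
    refine AddSubgroup.mem_inf.2 ⟨⟨τ • x₀ - x₀, e.symm⟩, ?_⟩
    refine mem_Tor_of_new A M p hp hpM hA ?_ hk.1 hk.2
    rw [e]
    exact hnew _
  · refine (PeuRam.range ψ hgal hE2).mono (sup_le inf_le_left ?_)
    exact AddSubgroup.zmultiples_le_of_mem ⟨x₀, rfl⟩

include hRigid hPL hEis hHQ hLift hPth in
/-- The core of the argument, for an abstract Galois module `X`. -/
theorem core_abs (M' p : ℕ) [NeZero M'] [NeZero p] (hp : p.Prime) (hp5 : 5 ≤ p)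
    (hpM' : ¬ p ∣ M') (A : ValuationSubring Kbar) (hA : A.LiesOverPrime p)
    {X : Type*} [AddCommGroup X] [DistribMulAction GQ X]
    (hE1 : NotCycScalar A p (⊤ : AddSubgroup X)) (hE2 : PeuRam A p (⊤ : AddSubgroup X))
    (φ : X →+ KV Kbar (FN (M' * p)) p) (hinj : Function.Injective φ)
    (hgal : ∀ (σ : GQ) (x : X), φ (σ • x) = σ • φ x)
    (good : ℕ → Prop) (a : ℕ → ℤ)
    (hT : ∀ (ℓ : ℕ) [NeZero ℓ], ℓ.Prime → good ℓ → ¬ ℓ ∣ M' * p → ∀ x : X,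
        heckeT Kbar (M' * p) ℓ p (φ x) = a ℓ • φ x)
    (hα : ∀ x : X, alphaKV M' p p (φ x) = 0)
    (ε : ℤ) (hε : ∀ x : X, wKV M' p p (φ x) = ε • φ x)
    (ℓ₀ : ℕ) (hℓ₀ : ℓ₀.Prime) (hℓ₀g : good ℓ₀) (hℓ₀N : ¬ ℓ₀ ∣ 4 * M' * p)
    (hℓ₀E : ¬ (p : ℤ) ∣ a ℓ₀ - ((ℓ₀ : ℤ) + 1)) :
    ∃ b : LaurentSeries (kk A), b ≠ 0 ∧ (∀ n : ℤ, n < 0 → b.coeff n = 0) ∧ RedOfForm A M' b ∧
      ∀ ℓ : ℕ, ℓ.Prime → good ℓ → ¬ ℓ ∣ M' * p → IsEigenSeries b ℓ ((a ℓ : ℤ) : kk A) := by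
  -- the neat level
  obtain ⟨M, hMdef⟩ : ∃ M : ℕ, M = 4 * M' := ⟨_, rfl⟩
  haveI : NeZero M := ⟨by rw [hMdef]; exact mul_ne_zero (by norm_num) (NeZero.ne M')⟩
  have hM : M' ∣ M := ⟨4, by rw [hMdef, mul_comm]⟩
  have h4 : 4 ∣ M := ⟨M', hMdef⟩
  have hM4 : M ∣ 4 * M' := by rw [hMdef]
  have hp2 : p ≠ 2 := by omega
  have hpM : ¬ p ∣ M := by
    rw [hMdef]
    intro h
    rcases (Nat.Prime.dvd_mul hp).1 h with h | h
    · have := Nat.le_of_dvd (by norm_num) h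
      omega
    · exact hpM' h
  have hdvd : M' * p ∣ M * p := Nat.mul_dvd_mul_right hM p
  have hlev : M * p = 4 * (M' * p) := by rw [hMdef, mul_assoc]
  -- the pull-back
  let ψ : X →+ KV Kbar (FN (M * p)) p := (lvlKV hdvd p).comp φ
  have hψ : ∀ x, ψ x = lvlKV hdvd p (φ x) := fun _ => rfl
  have hψinj : Function.Injective ψ := (lvlKV_four_injective hdvd hlev hp hp5).comp hinj
  have hψgal : ∀ (σ : GQ) (x : X), ψ (σ • x) = σ • ψ x := by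
    intro σ x
    rw [hψ, hψ, hgal, lvlKV_galois]
  have hψε : ∀ x : X, wKV M p p (ψ x) = ε • ψ x := by
    intro x
    rw [hψ, ← lvlKV_wKV hM hp hpM, hε, map_zsmul]
  have hψα : ∀ x : X, alphaKV M p p (ψ x) = 0 := by
    intro x
    rw [hψ, ← lvlKV_alphaKV hM hp hpM, hα, map_zero]
  have hψnew : ∀ x : X, ψ x ∈ newKV M p p := by
    intro x
    rw [mem_newKV]
    exact ⟨hψα x, by rw [hψε, map_zsmul, hψα, smul_zero]⟩
  -- Step A
  obtain ⟨x₀, hx₀⟩ := exists_not_mem_Kone hRigid M p hp hp2 hpM h4 A hA hE1 ψ hψinj hψgal hψnew ε hψε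
  -- a representative
  obtain ⟨u₁, hu₁, hred₁⟩ := DR.Hecke.exists_rep_unit A M' p hp hpM' hA hp.pos (φ x₀)
  let u : kummerUnits Kbar (FN (M * p)) p := ⟨Units.map (lvl hdvd : FN (M' * p) →* FN (M * p)) u₁,
      map_mem_kummerUnits (lvl hdvd) (integral_lvl hdvd) u₁.2⟩
  have hu : KV.mk u = ψ x₀ := by rw [hψ, ← hu₁, lvlKV_mk]
  have hucoe : ((u : (FN (M * p))ˣ) : FN (M * p)) =
      lvl hdvd ((u₁ : (FN (M' * p))ˣ) : FN (M' * p)) := rfl
  have hred : (Conc.R1 A M p hp hpM hA).red ((u : (FN (M * p))ˣ) : FN (M * p)) ≠ 0 := by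
    rw [hucoe]
    exact (R1_red_lvl_ne_zero_iff A p hp hpM' hpM hA hM _).2 hred₁
  -- Steps B, C
  obtain ⟨κ, hκ⟩ := exists_slopeMeter hPL M p hp hp5 hpM h4 A hA hE2 ψ hψgal hψnew x₀ u hu hred
  haveI : NeZero ℓ₀ := ⟨hℓ₀.ne_zero⟩
  have hℓ₀M : ¬ ℓ₀ ∣ M * p := by rw [hMdef]; exact hℓ₀N
  have hℓ₀M' : ¬ ℓ₀ ∣ M' * p := fun h => hℓ₀M (h.trans hdvd)
  have hTu : heckeT Kbar (M * p) ℓ₀ p (KV.mk u) = a ℓ₀ • KV.mk u := by
    rw [hu, hψ, ← lvlKV_heckeT hdvd ℓ₀ hℓ₀ hℓ₀M, hT ℓ₀ hℓ₀ hℓ₀g hℓ₀M', map_zsmul]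
  have hPD := hEis M p hp hpM hp5 h4 A hA u κ ℓ₀ (a ℓ₀) hred hκ hℓ₀ hℓ₀M hTu hℓ₀E
  -- the series
  refine ⟨dlogS ((Conc.R1 A M' p hp hpM' hA).red ((u₁ : (FN (M' * p))ˣ) : FN (M' * p))), ?_,
    fun n hn => dlogS_coeff_neg _ n hn, ?_, ?_⟩
  · -- `b ≠ 0`
    intro hb
    apply hx₀
    rw [← hu]
    rw [← dlogS_R1_red_lvl A p hp hpM' hpM hA hM, ← hucoe, dlogS] at hb
    have hv0 : (((Conc.R1 A M p hp hpM hA).red ((u : (FN (M * p))ˣ) : FN (M * p)) :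
        Igusa.E (kk A) M) : LaurentSeries (kk A)) ≠ 0 := by
      rw [Ne, ZeroMemClass.coe_eq_zero]
      exact hred
    have hθ := (mul_eq_zero.1 hb).resolve_right (inv_ne_zero hv0)
    haveI := charP_residueField A hp hA
    haveI : IsAlgClosed (kk A) := Fermat.Agent.GAL.INJ.isAlgClosed_residueField A
    obtain ⟨w, hw⟩ := hPth M p hp hpM (kk A) _ hθ
    exact mem_Kone_of_pow_eq A M p hp hpM hA u w hred hw
  · -- LIFT
    refine hLift M' M p hp hpM' hpM hp5 h4 hM hM4 A hA _ ?_ ?_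
    · rw [← hucoe]; exact hred
    · rw [← hucoe]; exact hPD
  · -- HQ
    intro ℓ hℓ hg hℓN
    haveI : NeZero ℓ := ⟨hℓ.ne_zero⟩
    exact hHQ M' p hp hpM' A hA u₁ ℓ (a ℓ) hred₁ hℓ hℓN (by rw [hu₁]; exact hT ℓ hℓ hg hℓN x₀)

end core

/-- **S44 from the contracts.** -/
theorem s44_of (hRigid : RigidStatement) (hPL : PLStatement) (hEis : EisStatement)
    (hHQ : HQStatement) (hLift : LiftStatement) (hPth : PthPowerStatement)
    (hIn : GlueInStatement) (hOut : GlueOutStatement) (hE : EStatement)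
    (P : FreyPackage) {N : ℕ} (hcond : P.IsConductorLevel N) (hpN : P.p ∣ N)
    (hirr : WeierstrassCurve.Affine.Point.GaloisRepIsIrreducible (K := AlgebraicClosure ℚ) ℚ P.freyCurve P.p)
    (hmod : P.ModularRepOfLevel N) : ∃ M : ℕ, M ∣ N ∧ ¬ P.p ∣ M ∧ P.ModularRepOfLevel M := by
  obtain ⟨M', rfl⟩ := hpN
  rw [mul_comm] at hcond hmod
  haveI : NeZero P.p := ⟨P.hp0⟩
  haveI : NeZero M' := ⟨by
    rintro rfl
    exact absurd hcond.pos (by simp)⟩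
  have hpM' : ¬ P.p ∣ M' := by
    rintro ⟨c, rfl⟩
    apply hcond.sq_not_dvd P.pp
    exact ⟨c, by ring⟩
  refine ⟨M', dvd_mul_left _ _, hpM', ?_⟩
  rcases hIn P M' hpM' hcond hirr hmod with h | ⟨W, φ, hW, hinj, hgal, hT, hα, ⟨ε, hε⟩, ℓ₀, hℓ₀, hℓ₀g,
    hℓ₀N, hℓ₀E⟩
  · exact h
  obtain ⟨A, hA⟩ := Lib.Frobenius.exists_liesOverPrime Kbar P.pp
  obtain ⟨hE1, hE2⟩ := hE P (hcond.p_dvd_abc (dvd_mul_left _ _)) A hA
  obtain ⟨b, hb0, hbneg, hbred, hbeig⟩ := core_abs hRigid hPL hEis hHQ hLift hPth M' P.p P.pp P.hp5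
    hpM' A hA hE1 hE2 φ hinj hgal (fun ℓ => W.IsGoodPrimeFor ℓ) (fun ℓ => W.apOfModel ℓ) hT hα ε hε
    ℓ₀ hℓ₀ hℓ₀g hℓ₀N hℓ₀E
  exact hOut P M' W hW hpM' A hA b hb0 hbneg hbred hbeig

end Fermat.Agent.MR
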